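import Fermat.Agent.S27.Plane.Smooth

/-!
# S27 / WP P3 : the coefficient formula for Weil differentials on a plane model
-/

set_option autoImplicit false
set_option linter.unusedSectionVars false

open AlgebraicCurve WithZero Polynomial
open scoped Polynomial.Bivariate

namespace Fermat.Agent.S27

namespace Coeff

section Univ

variable {K : Type*} [Field K]

/-- the divided difference `(φ(X) - φ(η)) / (X - η)`, written out explicitly. -/
noncomputable def dq (d : ℕ) (φ : K[X]) (η : K) : K[X] :=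
  ∑ k ∈ Finset.range (d + 1), ∑ i ∈ Finset.range k, C (φ.coeff k * η ^ (k - 1 - i)) * X ^ i

theorem dq_mul {d : ℕ} {φ : K[X]} (hd : φ.natDegree ≤ d) (η : K) :
    dq d φ η * (X - C η) = φ - C (φ.eval η) := by
  have h1 : φ = ∑ k ∈ Finset.range (d + 1), C (φ.coeff k) * X ^ k :=
    φ.as_sum_range_C_mul_X_pow' (Nat.lt_succ_of_le hd)
  have h2 : C (φ.eval η) = ∑ k ∈ Finset.range (d + 1), C (φ.coeff k) * C η ^ k := by
    rw [eval_eq_sum_range' (Nat.lt_succ_of_le hd)]
    simp
  have h3 : φ - C (φ.eval η) = ∑ k ∈ Finset.range (d + 1), C (φ.coeff k) * (X ^ k - C η ^ k) := by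
    rw [h2]
    nth_rewrite 1 [h1]
    rw [← Finset.sum_sub_distrib]
    simp only [mul_sub]
  rw [h3, dq, Finset.sum_mul]
  refine Finset.sum_congr rfl fun k _ => ?_
  rw [← geom_sum₂_mul, ← mul_assoc, Finset.mul_sum]
  congr 1
  refine Finset.sum_congr rfl fun i _ => ?_
  simp only [map_mul, map_pow]
  ring

theorem dq_eval {d : ℕ} {φ : K[X]} (hd : φ.natDegree ≤ d) (η : K) :
    (dq d φ η).eval η = φ.derivative.eval η := by
  have h := congrArg (fun q => (derivative q).eval η) (dq_mul hd η)
  simpa using h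

end Univ

variable {K F : Type*} [Field K] [Field F] [Algebra K F]

theorem inv_sub_expand {t : F} (ht : t ≠ 0) {c : F} (hc : t - c ≠ 0) (R : ℕ) :
    (t - c)⁻¹ = ∑ r ∈ Finset.range R, c ^ r * t⁻¹ ^ (r + 1) + c ^ R * t⁻¹ ^ R * (t - c)⁻¹ := by
  induction R with
  | zero => simp
  | succ R ih =>
    have key : c ^ R * t⁻¹ ^ R * (t - c)⁻¹ =
        c ^ R * t⁻¹ ^ (R + 1) + c ^ (R + 1) * t⁻¹ ^ (R + 1) * (t - c)⁻¹ := by
      have h1 : t * t⁻¹ = 1 := mul_inv_cancel₀ ht
      have h2 : (t - c) * (t - c)⁻¹ = 1 := mul_inv_cancel₀ hc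
      linear_combination (c ^ R * t⁻¹ ^ R) * (-(t - c)⁻¹ * h1 + t⁻¹ * h2)
    rw [Finset.sum_range_succ, add_assoc, ← key]
    exact ih

variable [IsAlgClosed K] [CharZero K] [IsFF K F]

theorem exists_le_exp (P : Place K F) (g : F) : ∃ R : ℕ, P.adicValuation g ≤ exp (R : ℤ) := by
  rcases eq_or_ne g 0 with rfl | hg
  · exact ⟨0, by simp⟩
  · refine ⟨(-P.ord g).toNat, ?_⟩
    rw [P.adicValuation_eq_exp_neg_ord hg, exp_le_exp]
    exact Int.self_le_toNat _

theorem adic_inv_le_of_pole (P : Place K F) {t : F} (ht : ¬ P.adicValuation t ≤ 1) :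
    P.adicValuation t⁻¹ ≤ exp (-1 : ℤ) := by
  rw [← adic_lt_one_iff, map_inv₀]
  exact inv_lt_one_of_one_lt₀ (not_le.1 ht)

theorem adic_sub_of_pole (P : Place K F) {t : F} (ht : ¬ P.adicValuation t ≤ 1) (z : K) :
    P.adicValuation (t - algebraMap K F z) = P.adicValuation t := by
  apply Valuation.map_sub_eq_of_lt_left
  refine lt_of_le_of_lt ?_ (not_le.1 ht)
  rcases eq_or_ne z 0 with rfl | hz
  · simp
  · exact (adic_algebraMap P hz).le

/-- at a pole `P` of `t`, the local component of `g / (t - z)` is a polynomial in `z`. -/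
theorem exists_poly_loc (lam : WD K F) (P : Place K F) {t : F} (ht : ¬ P.adicValuation t ≤ 1)
    (g : F) : ∃ c : K[X], ∀ z : K, lam.loc P (g * (t - algebraMap K F z)⁻¹) = c.eval z := by
  obtain ⟨R, hR⟩ := exists_le_exp P g
  have ht0 : t ≠ 0 := by
    rintro rfl
    simp at ht
  refine ⟨∑ r ∈ Finset.range R, C (lam.loc P (g * t⁻¹ ^ (r + 1))) * X ^ r, fun z => ?_⟩
  have hv : P.adicValuation (t - algebraMap K F z) = P.adicValuation t := adic_sub_of_pole P ht z
  have hc : t - algebraMap K F z ≠ 0 := by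
    intro h
    rw [h, map_zero] at hv
    exact ht0 ((map_eq_zero _).1 hv.symm)
  have h1 : g * (t - algebraMap K F z)⁻¹ = ∑ r ∈ Finset.range R, z ^ r • (g * t⁻¹ ^ (r + 1)) +
      g * (algebraMap K F z ^ R * t⁻¹ ^ R * (t - algebraMap K F z)⁻¹) := by
    conv_lhs => rw [inv_sub_expand ht0 hc R]
    rw [mul_add, Finset.mul_sum]
    congr 1
    refine Finset.sum_congr rfl fun r _ => ?_
    rw [Algebra.smul_def, map_pow]
    ring
  have h2 : P.adicValuation
      (g * (algebraMap K F z ^ R * t⁻¹ ^ R * (t - algebraMap K F z)⁻¹)) ≤ 1 := by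
    have a1 : P.adicValuation (algebraMap K F z ^ R) ≤ 1 := by
      rw [map_pow]
      apply pow_le_one₀ zero_le
      rcases eq_or_ne z 0 with rfl | hz
      · simp
      · exact (adic_algebraMap P hz).le
    have a2 : P.adicValuation (t⁻¹ ^ R) ≤ exp (-(R : ℤ)) := by
      rw [map_pow]
      calc P.adicValuation t⁻¹ ^ R ≤ exp (-1 : ℤ) ^ R :=
            pow_le_pow_left₀ zero_le (adic_inv_le_of_pole P ht) R
        _ = exp (-(R : ℤ)) := by rw [← exp_nsmul]; simp
    have a3 : P.adicValuation (t - algebraMap K F z)⁻¹ ≤ 1 := by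
      rw [map_inv₀, hv, ← map_inv₀]
      exact (adic_inv_le_of_pole P ht).trans (by rw [← exp_zero, exp_le_exp]; norm_num)
    rw [map_mul, map_mul, map_mul]
    calc _ ≤ exp (R : ℤ) * (1 * exp (-(R : ℤ)) * 1) :=
          mul_le_mul' hR (mul_le_mul' (mul_le_mul' a1 a2) a3)
      _ = 1 := by rw [one_mul, mul_one, ← exp_add]; simp
  rw [h1, map_add, WD.loc_eq_zero lam P h2, add_zero, map_sum, eval_finsetSum]
  refine Finset.sum_congr rfl fun r _ => ?_
  rw [map_smul, smul_eq_mul, eval_mul, eval_C, eval_pow, eval_X, mul_comm]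

/-- the sum over the poles of `t` of the local components of `g / (t - z)` is a polynomial
in `z`. -/
theorem exists_poly_sum (lam : WD K F) (t g : F) :
    ∃ c : K[X], ∀ z : K, ∑ P ∈ (finite_poles (K := K) t).toFinset,
      lam.loc P (g * (t - algebraMap K F z)⁻¹) = c.eval z := by
  classical
  have h : ∀ P : Place K F, ∃ c : K[X], P ∈ (finite_poles (K := K) t).toFinset →
      ∀ z : K, lam.loc P (g * (t - algebraMap K F z)⁻¹) = c.eval z := by
    intro P
    by_cases hP : P ∈ (finite_poles (K := K) t).toFinset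
    · obtain ⟨c, hc⟩ := exists_poly_loc lam P ((Set.Finite.mem_toFinset _).1 hP) g
      exact ⟨c, fun _ => hc⟩
    · exact ⟨0, fun h => absurd h hP⟩
  choose c hc using h
  refine ⟨∑ P ∈ (finite_poles (K := K) t).toFinset, c P, fun z => ?_⟩
  rw [eval_finsetSum]
  exact Finset.sum_congr rfl fun P hP => hc P hP z

theorem adic_sub_eq_one (R : Place K F) {f : F} {c c' : K}
    (h : R.adicValuation (f - algebraMap K F c') < 1) (hne : c' ≠ c) :
    R.adicValuation (f - algebraMap K F c) = 1 := by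
  have h1 : R.adicValuation (algebraMap K F (c' - c)) = 1 := adic_algebraMap R (sub_ne_zero.2 hne)
  have h2 : f - algebraMap K F c = (f - algebraMap K F c') + algebraMap K F (c' - c) := by
    rw [map_sub]; ring
  rw [h2, Valuation.map_add_eq_of_lt_right _ (by rw [h1]; exact h), h1]

theorem adic_le_one_of_sub (R : Place K F) {f : F} {c : K}
    (h : R.adicValuation (f - algebraMap K F c) < 1) : R.adicValuation f ≤ 1 := by
  have h2 : f = (f - algebraMap K F c) + algebraMap K F c := by ring
  rw [h2]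
  refine (Valuation.map_add _ _ _).trans (max_le h.le ?_)
  rcases eq_or_ne c 0 with rfl | hc
  · simp
  · exact (adic_algebraMap R hc).le

omit [IsAlgClosed K] [CharZero K] [IsFF K F] in
theorem aevalAeval_map_C (x y : F) (f : K[X]) : aevalAeval x y (f.map C) = aeval y f := by
  rw [← Bivariate.swap_C, Bivariate.aevalAeval_swap, aevalAeval_C]

end Coeff

namespace PlaneModel

variable {K F : Type*} [Field K] [Field F] [Algebra K F]
variable [IsAlgClosed K] [CharZero K] [IsFF K F] (M : PlaneModel K F)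

open Coeff in
/-- **P3, the coefficient formula.** "`lam = N(t,y)/Φ_Y(t,y) dt`". -/
theorem exists_coeff (lam : WD K F) :
    ∃ N : K[X][Y], ∀ (Q : Place K F) (z η : K), M.Smooth z η → M.At Q z η →
      lam.loc Q (M.t - algebraMap K F z)⁻¹ * (derivative M.Φ).evalEval z η = N.evalEval z η := by
  classical
  set d := M.Φ.natDegree with hd
  choose c hc using fun i : ℕ => exists_poly_sum lam M.t (M.y ^ i)
  refine ⟨-∑ k ∈ Finset.range (d + 1), ∑ i ∈ Finset.range k,
    C (M.Φ.coeff k * c i) * Y ^ (k - 1 - i), fun Q z η hs hQ => ?_⟩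
  set pol := (finite_poles (K := K) M.t).toFinset with hpol
  set φ : K[X] := M.Φ.map (evalRingHom z) with hφ
  have hφd : φ.natDegree ≤ d := natDegree_map_le
  set U := dq d φ η with hU
  set u : F := aeval M.y U with hu
  set s : F := M.t - algebraMap K F z with hsdef
  have hsQ : Q.adicValuation s = exp (-1 : ℤ) := M.unif_of_smooth hs hQ
  have hs0 : s ≠ 0 := by
    intro h
    rw [h, map_zero] at hsQ
    exact exp_ne_zero hsQ.symm
  have hφη : φ.eval η = 0 := by rw [hφ, map_evalRingHom_eval]; exact hs.1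
  have hφ'η : φ.derivative.eval η = (derivative M.Φ).evalEval z η := by
    rw [hφ, derivative_map, map_evalRingHom_eval]
  have hu_mul : u * (M.y - algebraMap K F η) = aeval M.y φ := by
    have := congrArg (aeval M.y) (dq_mul hφd η)
    simpa [hφη] using this
  -- `Φ(z, y) = - (t - z) Θ(t, y)`
  obtain ⟨Θ, hΘ⟩ : C (X - C z) ∣ M.Φ - φ.map C := by
    rw [C_dvd_iff_dvd_coeff]
    intro k
    rw [coeff_sub, coeff_map, hφ, coeff_map]
    exact X_sub_C_dvd_sub_C_eval
  have hθ : aeval M.y φ = - (s * aevalAeval M.t M.y Θ) := by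
    have := congrArg (aevalAeval M.t M.y) hΘ
    rw [map_sub, (M.ker _).2 dvd_rfl, aevalAeval_map_C, map_mul, aevalAeval_C] at this
    simp only [map_sub, aeval_X, aeval_C] at this
    rw [← this]; ring
  have hyreg : ∀ R : Place K F, R.adicValuation M.t ≤ 1 → R.adicValuation M.y ≤ 1 :=
    fun R hR => adic_le_one_of_sub R (M.exists_at_of_regular hR).2
  have hureg : ∀ R : Place K F, R.adicValuation M.t ≤ 1 → R.adicValuation u ≤ 1 :=
    fun R hR => adic_aeval_le_one R (hyreg R hR) U
  have claim1 : ∀ R : Place K F, ¬ R.adicValuation (u * s⁻¹) ≤ 1 → R ∈ insert Q pol := by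
    intro R hR
    by_contra hmem
    rw [Finset.mem_insert, not_or] at hmem
    obtain ⟨hRQ, hRpol⟩ := hmem
    have hRt : R.adicValuation M.t ≤ 1 := by
      by_contra h
      exact hRpol ((Set.Finite.mem_toFinset _).2 h)
    apply hR
    have hAt := M.exists_at_of_regular hRt
    by_cases hz : val R M.t = z
    · by_cases hη : val R M.y = η
      · rw [hz, hη] at hAt
        exact absurd (M.unique_of_smooth hs hAt hQ) hRQ
      · have hunit : R.adicValuation (M.y - algebraMap K F η) = 1 := adic_sub_eq_one R hAt.2 hη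
        have hy0 : M.y - algebraMap K F η ≠ 0 := by
          intro h
          rw [h, map_zero] at hunit
          exact zero_ne_one hunit
        have h3 : u * s⁻¹ = - aevalAeval M.t M.y Θ * (M.y - algebraMap K F η)⁻¹ := by
          rw [hθ] at hu_mul
          field_simp
          linear_combination hu_mul
        rw [h3, map_mul, Valuation.map_neg, map_inv₀, hunit, inv_one, mul_one]
        exact M.regular_aeval hAt Θ
    · have hunit : R.adicValuation s = 1 := adic_sub_eq_one R hAt.1 hz
      rw [map_mul, map_inv₀, hunit, inv_one, mul_one]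
      exact hureg R hRt
  have hQt : Q.adicValuation M.t ≤ 1 := adic_le_one_of_sub Q hQ.1
  have hQpol : Q ∉ pol := fun h => ((Set.Finite.mem_toFinset _).1 h) hQt
  have hsum := WD.sum_loc lam (u * s⁻¹) (insert Q pol) claim1
  rw [Finset.sum_insert hQpol] at hsum
  have hvalu : val Q u = (derivative M.Φ).evalEval z η := by
    rw [hu, S27.val_aeval Q (hyreg Q hQt), val_unique Q hQ.2, hU, dq_eval hφd, hφ'η]
  have hlocQ : lam.loc Q (u * s⁻¹) = (derivative M.Φ).evalEval z η * lam.loc Q s⁻¹ := by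
    rw [WD.loc_mul lam Q (hureg Q hQt) (by rw [map_inv₀, hsQ, ← exp_neg]; simp), hvalu]
  have hexp : u = ∑ k ∈ Finset.range (d + 1), ∑ i ∈ Finset.range k,
      (φ.coeff k * η ^ (k - 1 - i)) • M.y ^ i := by
    rw [hu, hU, dq, map_sum]
    refine Finset.sum_congr rfl fun k _ => ?_
    rw [map_sum]
    refine Finset.sum_congr rfl fun i _ => ?_
    rw [map_mul, aeval_C, map_pow, aeval_X, Algebra.smul_def]
  have hpolsum : ∑ P ∈ pol, lam.loc P (u * s⁻¹) = ∑ k ∈ Finset.range (d + 1),
      ∑ i ∈ Finset.range k, (φ.coeff k * η ^ (k - 1 - i)) * (c i).eval z := by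
    have h1 : ∀ P : Place K F, lam.loc P (u * s⁻¹) = ∑ k ∈ Finset.range (d + 1),
        ∑ i ∈ Finset.range k, (φ.coeff k * η ^ (k - 1 - i)) * lam.loc P (M.y ^ i * s⁻¹) := by
      intro P
      rw [hexp, Finset.sum_mul, map_sum]
      refine Finset.sum_congr rfl fun k _ => ?_
      rw [Finset.sum_mul, map_sum]
      refine Finset.sum_congr rfl fun i _ => ?_
      rw [smul_mul_assoc, map_smul, smul_eq_mul]
    simp only [h1]
    rw [Finset.sum_comm]
    refine Finset.sum_congr rfl fun k _ => ?_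
    rw [Finset.sum_comm]
    refine Finset.sum_congr rfl fun i _ => ?_
    rw [← Finset.mul_sum, hc i z]
  rw [hlocQ, hpolsum] at hsum
  have hN : (∑ k ∈ Finset.range (d + 1), ∑ i ∈ Finset.range k,
      C (M.Φ.coeff k * c i) * Y ^ (k - 1 - i) : K[X][Y]).evalEval z η =
      ∑ k ∈ Finset.range (d + 1),
        ∑ i ∈ Finset.range k, (φ.coeff k * η ^ (k - 1 - i)) * (c i).eval z := by
    rw [evalEval_finsetSum]
    refine Finset.sum_congr rfl fun k _ => ?_
    rw [evalEval_finsetSum]
    refine Finset.sum_congr rfl fun i _ => ?_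
    rw [evalEval_mul, evalEval_C, evalEval_pow, evalEval_X, eval_mul, hφ, coeff_map]
    simp only [coe_evalRingHom]
    ring
  rw [evalEval_neg, hN]
  linear_combination hsum

end PlaneModel

end Fermat.Agent.S27
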