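import Mathlib

/-!
# S27 / WP P1 : the plane model attached to an integral primitive element (abstract form)
-/

set_option autoImplicit false
set_option linter.style.haveILetI false
set_option linter.unusedSectionVars false

open IntermediateField Polynomial
open scoped Polynomial.Bivariate

namespace Fermat.Agent.S27.PlaneCore

section Eval

variable {R A : Type*} [CommRing R] [CommRing A] [Algebra R A]

theorem aevalAeval_eq_eval₂ (x y : A) (p : R[X][Y]) :
    aevalAeval x y p = p.eval₂ (aeval x : R[X] →ₐ[R] A).toRingHom y := by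
  induction p using Polynomial.induction_on' with
  | add p q hp hq => rw [map_add, hp, hq, eval₂_add]
  | monomial n a =>
    rw [← C_mul_X_pow_eq_monomial, map_mul, map_pow, aevalAeval_C, aevalAeval_Y, eval₂_mul,
      eval₂_pow, eval₂_C, eval₂_X]
    rfl

theorem aevalAeval_mem (O : Subalgebra R A) {x y : A} (hx : x ∈ O) (hy : y ∈ O) (p : R[X][Y]) :
    aevalAeval x y p ∈ O := by
  rw [aevalAeval_eq_eval₂, eval₂_eq_sum, Polynomial.sum_def]
  refine O.sum_mem fun n _ => O.mul_mem ?_ (O.pow_mem hy n)
  have h1 : Algebra.adjoin R {x} ≤ O := Algebra.adjoin_le (by rintro _ rfl; exact hx)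
  exact h1 (aeval_mem_adjoin_singleton R x)

end Eval

variable {K k F A : Type*} [Field K] [Field k] [Field F] [Algebra K F] [Algebra k F]
  [CommRing A] [IsDomain A] [IsIntegrallyClosed A] [Algebra A k] [IsFractionRing A k] [Algebra K A]
  [Algebra A F] [IsScalarTower A k F] [IsScalarTower K A F]

theorem aevalAeval_eq_aeval_map (e : K[X] ≃ₐ[K] A) (y : F) (a : K[X][Y]) :
    aevalAeval (algebraMap A F (e X)) y a = aeval y (a.map (e : K[X] →+* A)) := by
  rw [aevalAeval_eq_eval₂, aeval_def, eval₂_map]
  congr 1
  apply Polynomial.ringHom_ext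
  · intro c
    simp only [AlgHom.toRingHom_eq_coe, RingHom.coe_coe, aeval_C, RingHom.coe_comp,
      Function.comp_apply]
    have : e (C c) = algebraMap K A c := e.commutes c
    rw [this, ← IsScalarTower.algebraMap_apply]
  · simp

theorem model_of_primitive (e : K[X] ≃ₐ[K] A) (y : F) (hint : IsIntegral A y)
    (htop : k⟮y⟯ = ⊤) :
    ((minpoly A y).map (e.symm : A →+* K[X])).Monic ∧
    (∀ a : K[X][Y], aevalAeval (algebraMap A F (e X)) y a = 0 ↔
      (minpoly A y).map (e.symm : A →+* K[X]) ∣ a) ∧
    (∀ f : F, ∃ a b : K[X][Y], aevalAeval (algebraMap A F (e X)) y b ≠ 0 ∧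
      f * aevalAeval (algebraMap A F (e X)) y b = aevalAeval (algebraMap A F (e X)) y a) := by
  have hinj : Function.Injective (algebraMap A F) := by
    rw [IsScalarTower.algebraMap_eq A k F]
    exact (algebraMap k F).injective.comp (IsFractionRing.injective A k)
  haveI : FaithfulSMul A F := (faithfulSMul_iff_algebraMap_injective A F).mpr hinj
  haveI : Module.IsTorsionFree A F := inferInstance
  have hmm : ∀ q : A[X], (q.map (e.symm : A →+* K[X])).map (e : K[X] →+* A) = q := by
    intro q
    rw [Polynomial.map_map]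
    have : (e : K[X] →+* A).comp (e.symm : A →+* K[X]) = RingHom.id A := by
      ext x; simp
    rw [this, Polynomial.map_id]
  refine ⟨(minpoly.monic hint).map _, ?_, ?_⟩
  · intro a
    rw [aevalAeval_eq_aeval_map, minpoly.isIntegrallyClosed_dvd_iff hint]
    have h1 := map_dvd_iff (Polynomial.mapEquiv e.toRingEquiv)
      (a := (minpoly A y).map (e.symm : A →+* K[X])) (b := a)
    have h2 : Polynomial.mapEquiv e.toRingEquiv ((minpoly A y).map (e.symm : A →+* K[X]))
        = minpoly A y := hmm _
    rw [h2] at h1
    exact h1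
  · intro f
    have hf : f ∈ k⟮y⟯ := by rw [htop]; trivial
    have halg : IsAlgebraic k y := (hint.tower_top (A := k)).isAlgebraic
    have hf' : f ∈ k⟮y⟯.toSubalgebra := hf
    rw [adjoin_simple_toSubalgebra_of_isAlgebraic halg,
      Algebra.adjoin_singleton_eq_range_aeval] at hf'
    obtain ⟨q, hq⟩ := hf'
    obtain ⟨d, hdM, hd⟩ := IsLocalization.integerNormalization_spec (nonZeroDivisors A) q
    set q' := IsLocalization.integerNormalization (nonZeroDivisors A) q with hq'
    have h1 : aeval y q' = algebraMap A F d * f := by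
      rw [← aeval_map_algebraMap k, hd, ← hq]
      have : ((d : A) • q) = C (algebraMap A k d) * q := by
        rw [Algebra.smul_def]; rfl
      rw [this, map_mul, aeval_C, ← IsScalarTower.algebraMap_apply]
      rfl
    refine ⟨q'.map (e.symm : A →+* K[X]), C (e.symm d), ?_, ?_⟩
    · rw [aevalAeval_eq_aeval_map, Polynomial.map_C, aeval_C]
      simp only [RingHom.coe_coe, AlgEquiv.apply_symm_apply]
      intro h0
      have : (d : A) = 0 := hinj (by rw [h0, map_zero])
      exact nonZeroDivisors.ne_zero hdM this
    · rw [aevalAeval_eq_aeval_map, aevalAeval_eq_aeval_map, hmm, h1, Polynomial.map_C, aeval_C]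
      simp only [RingHom.coe_coe, AlgEquiv.apply_symm_apply]
      ring

end Fermat.Agent.S27.PlaneCore
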