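import Fermat.Agent.S27.Plane.Core
import Fermat.Agent.S27.Plane.Model
import Fermat.Agent.S27.Defs

/-!
# S27 / WP P1 : every place, with any uniformizer `t`, is a smooth point of a plane model
(structure-free form; `exists_planeModel` in `S27/Plane.lean` is a citation of
`exists_plane_data`).
-/

set_option autoImplicit false
set_option linter.style.haveILetI false
set_option linter.unusedSectionVars false

open AlgebraicCurve IsDedekindDomain IntermediateField Polynomial WithZero
open scoped Polynomial.Bivariate IntermediateField.algebraAdjoinAdjoin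

namespace Fermat.Agent.S27.PlaneCore

open Fermat.Agent.S24 Fermat.Agent.S24.IsFiniteParam

variable {K F : Type*} [Field K] [Field F] [Algebra K F] [IsAlgClosed K] [CharZero K]

theorem mem_pow_iff_le_ord {t : F} (ht : IsFiniteParam K t) (w : HeightOneSpectrum (intRing K t))
    {b : intRing K t} (hb : b ≠ 0) (n : ℕ) :
    b ∈ w.asIdeal ^ n ↔ (n : ℤ) ≤ (ht.place w).ord (b : F) := by
  haveI := ht.isDedekindDomain
  haveI := ht.isFractionRing
  haveI := isScalarTower_intRing (K := K) (y := t)
  have h := ord_ofHeightOneSpectrum_algebraMap (K := K) (F := F) w hb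
  have h' : (ht.place w).ord (b : F) = _ := h
  rw [h', mem_pow_iff_le_count w hb n]
  exact Nat.cast_le.symm

/-- an integral element with a simple zero at `P`, primitive over `K(t)`, whose norm has a simple
zero at `t = 0`. -/
theorem exists_elt {t : F} (ht : IsFiniteParam K t) (P : Place K F) (hP : P.ord t = 1) :
    ∃ y : F, IsIntegral (polyRing K t) y ∧ P.ord y = 1 ∧ K⟮t⟯⟮y⟯ = ⊤ ∧
      (minpoly (polyRing K t) y).coeff 0 ∈ Ideal.span {gen K t} ∧
      (minpoly (polyRing K t) y).coeff 0 ∉ Ideal.span {gen K t} ^ 2 := by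
  classical
  haveI := ht.isPrincipalIdealRing
  haveI := ht.finite
  haveI := ht.isDedekindDomain
  haveI := ht.isFractionRing
  haveI := isScalarTower_intRing (K := K) (y := t)
  haveI := isScalarTower_polyRing_intRing (K := K) (y := t)
  haveI := ht.moduleFinite
  haveI := ht.finiteType_intRing
  haveI : IsScalarTower (polyRing K t) (intRing K t) F :=
    IsScalarTower.of_algebraMap_eq (fun _ => rfl)
  have hinj : Function.Injective (algebraMap (polyRing K t) (intRing K t)) :=
    algebraMap_injective_of_field_isFractionRing (polyRing K t) (intRing K t) K⟮t⟯ F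
  haveI : FaithfulSMul (polyRing K t) (intRing K t) :=
    (faithfulSMul_iff_algebraMap_injective _ _).mpr hinj
  haveI : Module.IsTorsionFree (polyRing K t) (intRing K t) := inferInstance
  have htP : t ∈ P.toValuationSubring :=
    (Place.mem_iff_ord_nonneg P ht.ne_zero).2 (by rw [hP]; exact zero_le_one)
  obtain ⟨w, rfl⟩ := ht.exists_eq_place P htP
  have hmax := ht.isMaximal_span_gen
  have hg0 : gen K t ≠ 0 := fun h => ht.ne_zero (congrArg Subtype.val h)
  let p : HeightOneSpectrum (polyRing K t) :=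
    ⟨Ideal.span {gen K t}, hmax.isPrime, by simpa using hg0⟩
  set S := ht.finite_primes.toFinset with hSdef
  have hS : ∀ Q : HeightOneSpectrum (intRing K t),
      Q ∈ S ↔ Q.asIdeal.under (polyRing K t) = p.asIdeal := by
    intro Q
    rw [hSdef, Set.Finite.mem_toFinset]
    constructor
    · intro hQ
      symm
      refine hmax.eq_of_le (Ideal.comap_ne_top _ Q.isPrime.ne_top) ?_
      rw [Ideal.span_singleton_le_iff_mem]
      exact hQ
    · intro hQ
      have : gen K t ∈ Q.asIdeal.under (polyRing K t) := by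
        rw [hQ]; exact Ideal.mem_span_singleton_self _
      exact this
  have hg' := ht.gen'_ne_zero
  have hw1 : gen' K t ∈ w.asIdeal := by
    have := (mem_pow_iff_le_ord ht w hg' 1).2 (by rw [show ((gen' K t : intRing K t) : F) = t from rfl, hP]; rfl)
    simpa using this
  have hw2 : gen' K t ∉ w.asIdeal ^ 2 := by
    intro h
    have := (mem_pow_iff_le_ord ht w hg' 2).1 h
    rw [show ((gen' K t : intRing K t) : F) = t from rfl, hP] at this
    norm_num at this
  have hwS : w ∈ S := by
    rw [hSdef, Set.Finite.mem_toFinset]; exact hw1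
  obtain ⟨b, hb⟩ := IsDedekindDomain.exists_forall_sub_mem_ideal (s := S)
    (fun Q : HeightOneSpectrum (intRing K t) => Q.asIdeal) (fun Q => if Q = w then 2 else 1)
    (fun Q _ => Q.prime) (fun Q _ Q' _ h h' => h (HeightOneSpectrum.ext h'))
    (fun Q => if Q.1 = w then gen' K t else 1)
  have hbw : b - gen' K t ∈ w.asIdeal ^ 2 := by
    have := hb w hwS
    simpa using this
  have hb1 : b ∈ w.asIdeal := by
    have h1 : b - gen' K t ∈ w.asIdeal := Ideal.pow_le_self (by norm_num) hbw
    have := w.asIdeal.add_mem h1 hw1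
    simpa using this
  have hb2 : b ∉ w.asIdeal ^ 2 := by
    intro h
    apply hw2
    have := (w.asIdeal ^ 2).sub_mem h hbw
    simpa using this
  have hb3 : ∀ Q ∈ S, Q ≠ w → b ∉ Q.asIdeal := by
    intro Q hQ hne h
    have h1 := hb Q hQ
    simp only [if_neg hne, pow_one] at h1
    have := Q.asIdeal.sub_mem h h1
    rw [sub_sub_cancel] at this
    exact Q.isPrime.ne_top ((Ideal.eq_top_iff_one _).2 this)
  have hb0 : b ≠ 0 := by
    rintro rfl
    exact hb2 (Ideal.zero_mem _)
  obtain ⟨c1, c2, c3⟩ := core (K := K) (k := K⟮t⟯) (F := F) (A := polyRing K t)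
    (B := intRing K t) p S hS w hwS b hb1 hb2 hb3
  refine ⟨(b : F), b.2, ?_, c1, c2, c3⟩
  have h1 := (mem_pow_iff_le_ord ht w hb0 1).1 (by simpa using hb1)
  have h2 : ¬ ((2 : ℕ) : ℤ) ≤ (ht.place w).ord (b : F) := fun h =>
    hb2 ((mem_pow_iff_le_ord ht w hb0 2).2 h)
  push_cast at h1 h2
  omega

omit [IsAlgClosed K] [CharZero K] in
theorem adic_algebraMap' (P : Place K F) {c : K} (hc : c ≠ 0) :
    P.adicValuation (algebraMap K F c) = 1 := by
  have h0 : algebraMap K F c ≠ 0 := by
    rwa [Ne, map_eq_zero]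
  rw [P.adicValuation_eq_exp_neg_ord h0, Place.ord_algebraMap]
  simp

omit [IsAlgClosed K] [CharZero K] in
theorem adic_eq_exp_neg_iff (P : Place K F) {f : F} (n : ℤ) :
    P.adicValuation f = exp (-n) ↔ f ≠ 0 ∧ P.ord f = n := by
  constructor
  · intro h
    have h0 : f ≠ 0 := by
      rintro rfl
      rw [map_zero] at h
      exact exp_ne_zero h.symm
    refine ⟨h0, ?_⟩
    rw [P.adicValuation_eq_exp_neg_ord h0] at h
    have := exp_injective h
    omega
  · rintro ⟨h0, h⟩
    rw [P.adicValuation_eq_exp_neg_ord h0, h]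

/-- **P1**, structure-free form. -/
theorem exists_plane_data [IsFF K F] (P : Place K F) (t : F)
    (ht : P.adicValuation t = exp (-1 : ℤ)) :
    ∃ (y : F) (Φ : K[X][Y]), IsFiniteParam K t ∧ Φ.Monic ∧
      (∀ a : K[X][Y], aevalAeval t y a = 0 ↔ Φ ∣ a) ∧
      (∀ f : F, ∃ a b : K[X][Y], aevalAeval t y b ≠ 0 ∧
        f * aevalAeval t y b = aevalAeval t y a) ∧
      P.adicValuation y < 1 ∧ Φ.evalEval 0 0 = 0 ∧ (derivative Φ).evalEval 0 0 ≠ 0 := by
  obtain ⟨ht0, hord⟩ := (adic_eq_exp_neg_iff P 1).1 ht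
  obtain ⟨x, hx⟩ := IsFF.exists_param (K := K) (F := F)
  have hpar : IsFiniteParam K t := by
    apply hx.of_not_mem_range
    rintro ⟨c, rfl⟩
    rw [Place.ord_algebraMap] at hord
    exact zero_ne_one hord
  obtain ⟨y, hint, hy1, htop, hc2, hc3⟩ := exists_elt hpar P hord
  haveI := hpar.isPrincipalIdealRing
  set e := Polynomial.algEquivOfTranscendental K t hpar.transcendental with he
  have heX : e X = gen K t := by
    apply Subtype.ext
    simp [gen, he]
  have hetX : algebraMap (polyRing K t) F (e X) = t := by rw [heX]; rfl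
  obtain ⟨m1, m2, m3⟩ := model_of_primitive (K := K) (k := K⟮t⟯) (F := F) e y hint htop
  rw [hetX] at m2 m3
  set Φ := (minpoly (polyRing K t) y).map (e.symm : polyRing K t →+* K[X]) with hΦ
  have hvy : P.adicValuation y = exp (-1 : ℤ) := by
    refine (adic_eq_exp_neg_iff P 1).2 ⟨?_, hy1⟩
    rintro rfl
    simp [Place.ord] at hy1
  -- the valuation ring as a subalgebra
  let O' : Subalgebra K F := { P.toValuationSubring.toSubring with
    algebraMap_mem' := P.algebraMap_mem' }
  have hO' : ∀ f : F, f ∈ O' → P.adicValuation f ≤ 1 := fun f hf =>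
    P.adicValuation_le_one_of_mem hf
  have htO : t ∈ O' := (Place.mem_iff_ord_nonneg P ht0).2 (by rw [hord]; exact zero_le_one)
  have hyO : y ∈ O' := by
    have hy0 : y ≠ 0 := ((adic_eq_exp_neg_iff P 1).1 hvy).1
    exact (Place.mem_iff_ord_nonneg P hy0).2 (by rw [hy1]; exact zero_le_one)
  have hreg2 : ∀ a : K[X][Y], P.adicValuation (aevalAeval t y a) ≤ 1 := fun a =>
    hO' _ (aevalAeval_mem O' htO hyO a)
  have hreg1 : ∀ g : K[X], P.adicValuation (aeval t g) ≤ 1 := fun g => by
    have := hreg2 (C g)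
    rwa [aevalAeval_C] at this
  have hregX : ∀ g : K[X], X ∣ g → P.adicValuation (aeval t g) ≤ exp (-1 : ℤ) := by
    rintro g ⟨g', rfl⟩
    rw [map_mul, aeval_X, map_mul, ht]
    exact mul_le_of_le_one_right' (hreg1 g')
  set c0 := Φ.coeff 0 with hc0
  set c1 := Φ.coeff 1 with hc1
  have hc0e : c0 = e.symm ((minpoly (polyRing K t) y).coeff 0) := by
    rw [hc0, hΦ, coeff_map]; rfl
  have hX1 : X ∣ c0 := by
    rw [Ideal.mem_span_singleton] at hc2
    have := map_dvd e.symm hc2
    rwa [← heX, AlgEquiv.symm_apply_apply, ← hc0e] at this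
  have hX2 : ¬ X ^ 2 ∣ c0 := by
    intro h
    apply hc3
    rw [Ideal.span_singleton_pow, Ideal.mem_span_singleton]
    have := map_dvd e h
    rwa [map_pow, heX, hc0e, AlgEquiv.apply_symm_apply] at this
  obtain ⟨h, hh⟩ := hX1
  have hh0 : h.coeff 0 ≠ 0 := by
    intro h0
    apply hX2
    obtain ⟨h', rfl⟩ := X_dvd_iff.2 h0
    exact ⟨h', by rw [hh]; ring⟩
  have hvh : P.adicValuation (aeval t h) = 1 := by
    have h1 : aeval t h = aeval t (divX h) * t + algebraMap K F (h.coeff 0) := by
      conv_lhs => rw [← divX_mul_X_add h]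
      simp
    rw [h1, Valuation.map_add_eq_of_lt_right, adic_algebraMap' P hh0]
    rw [adic_algebraMap' P hh0, map_mul, ht]
    refine lt_of_le_of_lt (mul_le_of_le_one_left' (hreg1 _)) ?_
    rw [← exp_zero, exp_lt_exp]
    norm_num
  have hvc0 : P.adicValuation (aeval t c0) = exp (-1 : ℤ) := by
    rw [hh, map_mul, aeval_X, map_mul, ht, hvh, mul_one]
  have hdec : Φ = divX (divX Φ) * X ^ 2 + C c1 * X + C c0 := by
    conv_lhs => rw [← divX_mul_X_add Φ, ← divX_mul_X_add (divX Φ), coeff_divX]
    rw [hc0, hc1]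
    ring
  have hzero : aevalAeval t y Φ = 0 := (m2 Φ).2 dvd_rfl
  have hrel : aeval t c0 = -(aevalAeval t y (divX (divX Φ)) * y ^ 2 + aeval t c1 * y) := by
    rw [hdec] at hzero
    simp only [map_add, map_mul, map_pow, aevalAeval_C, aevalAeval_Y] at hzero
    linear_combination hzero
  refine ⟨y, Φ, hpar, m1, m2, m3, ?_, ?_, ?_⟩
  · rw [hvy, ← exp_zero, exp_lt_exp]
    norm_num
  · have : Φ.evalEval 0 0 = c0.coeff 0 := by
      simp [evalEval, hc0, coeff_zero_eq_eval_zero]
    rw [this, hh]
    simp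
  · have : (derivative Φ).evalEval 0 0 = c1.coeff 0 := by
      have h1 : (derivative Φ).coeff 0 = c1 := by
        rw [coeff_derivative]; simp [hc1]
      rw [← h1]
      simp [evalEval, coeff_zero_eq_eval_zero]
    rw [this]
    intro h0
    have hv1 : P.adicValuation (aeval t c1) ≤ exp (-1 : ℤ) := hregX _ (X_dvd_iff.2 h0)
    have hle : P.adicValuation (aeval t c0) ≤ exp (-2 : ℤ) := by
      rw [hrel, Valuation.map_neg]
      refine (Valuation.map_add _ _ _).trans (max_le ?_ ?_)
      · rw [map_mul, map_pow, hvy, ← exp_nsmul]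
        refine (mul_le_of_le_one_left' (hreg2 _)).trans ?_
        rw [exp_le_exp]
        norm_num
      · rw [map_mul, hvy]
        refine (mul_le_mul' hv1 le_rfl).trans ?_
        rw [← exp_add, exp_le_exp]
        norm_num
    rw [hvc0, exp_le_exp] at hle
    norm_num at hle

end Fermat.Agent.S27.PlaneCore
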