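import Fermat.Agent.S27.Plane.Defs

/-!
# S27 / WP P2 : smooth points of a plane model (owner: helper44)
-/

set_option autoImplicit false

open AlgebraicCurve WithZero Polynomial
open scoped Polynomial.Bivariate

namespace Fermat.Agent.S27

variable {K F : Type*} [Field K] [Field F] [Algebra K F]

section Generic

/-- `aevalAeval` on a monomial in `Y`. -/
theorem aevalAeval_monomial (t y : F) (n : ℕ) (p : K[X]) :
    aevalAeval t y (monomial n p : K[X][Y]) = aeval t p * y ^ n := by
  rw [← C_mul_X_pow_eq_monomial, map_mul, map_pow, aevalAeval_C, aevalAeval_Y]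

theorem evalEval_monomial (z η : K) (n : ℕ) (p : K[X]) :
    (monomial n p : K[X][Y]).evalEval z η = p.eval z * η ^ n := by
  rw [← C_mul_X_pow_eq_monomial, evalEval_mul, evalEval_pow, evalEval_C, evalEval_X]

theorem aevalAeval_eq_eval₂ (t y : F) (a : K[X][Y]) :
    aevalAeval t y a = a.eval₂ ((aeval t : K[X] →ₐ[K] F) : K[X] →+* F) y := by
  induction a using Polynomial.induction_on' with
  | add p q hp hq => rw [map_add, eval₂_add, hp, hq]
  | monomial n p => rw [aevalAeval_monomial, eval₂_monomial]; rfl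

/-- Taylor decomposition of order one at the point `(z, η)`. -/
theorem exists_decomp (z η : K) (a : K[X][Y]) :
    ∃ (r : K[X]) (s : K[X][Y]),
      a = CC (a.evalEval z η) + C (X - C z) * C r + (Y - CC η) * s := by
  refine ⟨(a.eval (C η)) /ₘ (X - C z), a /ₘ (X - C (C η)), ?_⟩
  have h1 := modByMonic_add_div a (X - C (C η))
  rw [modByMonic_X_sub_C_eq_C_eval] at h1
  have h2 := modByMonic_add_div (a.eval (C η)) (X - C z)
  rw [modByMonic_X_sub_C_eq_C_eval] at h2
  conv_lhs => rw [← h1, ← h2]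
  rw [C_add, C_mul]

theorem evalEval_derivative_of_decomp {z η c : K} {a s : K[X][Y]} {r : K[X]}
    (h : a = CC c + C (X - C z) * C r + (Y - CC η) * s) :
    (derivative a).evalEval z η = s.evalEval z η := by
  rw [h]
  simp only [derivative_add, derivative_mul, derivative_C, derivative_sub, derivative_X,
    evalEval_add, evalEval_mul, evalEval_sub, evalEval_X, evalEval_CC, evalEval_zero,
    evalEval_one]
  ring

end Generic

variable [IsAlgClosed K] [CharZero K] [IsFF K F]

theorem adic_lt_one_of_mem_nonunits (v : Place K F) {f : F}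
    (hf : f ∈ v.toValuationSubring.nonunits) : v.adicValuation f < 1 := by
  rcases eq_or_ne f 0 with rfl | h0
  · simp
  have h2 : f⁻¹ ∉ v.toValuationSubring := by
    have := (v.toValuationSubring.inv_mem_nonunits_iff (x := f⁻¹)).1 (by rwa [inv_inv])
    exact this.resolve_left (inv_ne_zero h0)
  rw [← adic_le_one_iff_mem, map_inv₀, not_le] at h2
  have h4 : v.adicValuation f ≠ 0 := (Valuation.ne_zero_iff _).2 h0
  exact (one_lt_inv₀ (zero_lt_iff.2 h4)).1 h2

theorem ord_eq_zero_of_adic_eq_one (v : Place K F) {f : F} (hf : v.adicValuation f = 1) :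
    v.ord f = 0 := by
  have h0 : f ≠ 0 := by
    rintro rfl
    simp at hf
  rw [v.adicValuation_eq_exp_neg_ord h0, ← exp_zero, exp_inj] at hf
  omega

namespace PlaneModel

variable (M : PlaneModel K F)

theorem At.regular_t {M : PlaneModel K F} {Q : Place K F} {z η : K} (hQ : M.At Q z η) :
    Q.adicValuation M.t ≤ 1 := by
  have : M.t = (M.t - algebraMap K F z) + algebraMap K F z := by ring
  rw [this]
  exact (Valuation.map_add _ _ _).trans (max_le hQ.1.le (Q.adicValuation_algebraMap_le_one _))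

theorem At.regular_y {M : PlaneModel K F} {Q : Place K F} {z η : K} (hQ : M.At Q z η) :
    Q.adicValuation M.y ≤ 1 := by
  have : M.y = (M.y - algebraMap K F η) + algebraMap K F η := by ring
  rw [this]
  exact (Valuation.map_add _ _ _).trans (max_le hQ.2.le (Q.adicValuation_algebraMap_le_one _))

/-- **P2.** polynomials in `t, y` are regular at a place centred at a finite point. -/
theorem regular_aeval {Q : Place K F} {z η : K} (hQ : M.At Q z η) (a : K[X][Y]) :
    Q.adicValuation (aevalAeval M.t M.y a) ≤ 1 := by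
  induction a using Polynomial.induction_on' with
  | add p q hp hq =>
    rw [map_add]
    exact (Valuation.map_add _ _ _).trans (max_le hp hq)
  | monomial n p =>
    rw [aevalAeval_monomial, map_mul, map_pow]
    exact mul_le_one' (adic_aeval_le_one Q hQ.regular_t p) (pow_le_one' hQ.regular_y n)

theorem val_aeval {Q : Place K F} {z η : K} (hQ : M.At Q z η) (a : K[X][Y]) :
    val Q (aevalAeval M.t M.y a) = a.evalEval z η := by
  induction a using Polynomial.induction_on' with
  | add p q hp hq =>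
    rw [map_add, val_add Q (M.regular_aeval hQ p) (M.regular_aeval hQ q), hp, hq, evalEval_add]
  | monomial n p =>
    rw [aevalAeval_monomial, evalEval_monomial,
      val_mul Q (adic_aeval_le_one Q hQ.regular_t p)
        (by rw [map_pow]; exact pow_le_one' hQ.regular_y n),
      S27.val_aeval Q hQ.regular_t, val_pow Q hQ.regular_y, val_unique Q hQ.1, val_unique Q hQ.2]

theorem eval_eq_zero_of_at {Q : Place K F} {z η : K} (hQ : M.At Q z η) : M.Φ.evalEval z η = 0 := by
  rw [← M.val_aeval hQ, (M.ker M.Φ).2 dvd_rfl]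
  have := val_algebraMap Q (0 : K)
  rwa [map_zero] at this

/-- every point of the plane curve is the centre of a place. -/
theorem exists_at {z η : K} (h : M.Φ.evalEval z η = 0) : ∃ Q : Place K F, M.At Q z η := by
  let φ : K[X][Y] →+* F := (aevalAeval M.t M.y : K[X][Y] →ₐ[K] F)
  let A : Subring F := φ.range
  let φ' : K[X][Y] →+* A := φ.rangeRestrict
  let I : Ideal A := Ideal.map φ' (RingHom.ker (evalEvalRingHom z η))
  have hI : I ≠ ⊤ := by
    intro htop
    have h1 : (1 : A) ∈ I := htop ▸ Submodule.mem_top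
    rw [Ideal.mem_map_iff_of_surjective φ' φ.rangeRestrict_surjective] at h1
    obtain ⟨a, ha, ha1⟩ := h1
    have h2 : aevalAeval M.t M.y (a - 1) = 0 := by
      have := congrArg Subtype.val ha1
      rw [map_sub, map_one, sub_eq_zero]
      exact this
    obtain ⟨c, hc⟩ := (M.ker _).1 h2
    have h3 := congrArg (evalEval z η) hc
    rw [evalEval_sub, evalEval_one, evalEval_mul, h, zero_mul] at h3
    have ha' : a.evalEval z η = 0 := ha
    rw [ha'] at h3
    simp at h3
  obtain ⟨B, hAB, hIB⟩ := Ideal.image_subset_nonunits_valuationSubring I hI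
  have hmem : ∀ a : K[X][Y], aevalAeval M.t M.y a ∈ B := fun a => hAB ⟨a, rfl⟩
  have hnon : ∀ a : K[X][Y], a.evalEval z η = 0 → aevalAeval M.t M.y a ∈ B.nonunits := by
    intro a ha
    apply hIB
    exact ⟨φ' a, Ideal.mem_map_of_mem φ' ha, rfl⟩
  have hK : ∀ c : K, algebraMap K F c ∈ B := by
    intro c
    have := hmem (CC c)
    simpa using this
  have ht : M.t ∈ B := by simpa using hmem (C X)
  have htz : M.t - algebraMap K F z ∈ B.nonunits := by
    have := hnon (C (X - C z)) (by rw [evalEval_C]; simp)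
    simpa using this
  have hyη : M.y - algebraMap K F η ∈ B.nonunits := by
    have := hnon (Y - CC η) (by simp)
    simpa using this
  have hB : B ≠ ⊤ := by
    rintro rfl
    have h0 : M.t - algebraMap K F z ≠ 0 := (M.param.sub_const z).ne_zero
    have := ((⊤ : ValuationSubring F).inv_mem_nonunits_iff
      (x := (M.t - algebraMap K F z)⁻¹)).1 (by rwa [inv_inv])
    exact (this.resolve_left (inv_ne_zero h0)) (ValuationSubring.mem_top _)
  obtain ⟨Q, hQ⟩ := M.param.exists_place_eq B hK ht hB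
  exact ⟨Q, adic_lt_one_of_mem_nonunits Q (hQ ▸ htz), adic_lt_one_of_mem_nonunits Q (hQ ▸ hyη)⟩

/-- a polynomial not vanishing at the centre is a unit at the place. -/
theorem adic_aeval_eq_one {Q : Place K F} {z η : K} (hQ : M.At Q z η) {b : K[X][Y]}
    (hb : b.evalEval z η ≠ 0) : Q.adicValuation (aevalAeval M.t M.y b) = 1 := by
  refine le_antisymm (M.regular_aeval hQ b) (not_lt.1 fun h => hb ?_)
  rw [← M.val_aeval hQ]
  exact (val_eq_zero_iff Q (M.regular_aeval hQ b)).2 h

theorem aeval_ne_zero {Q : Place K F} {z η : K} (hQ : M.At Q z η) {b : K[X][Y]}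
    (hb : b.evalEval z η ≠ 0) : aevalAeval M.t M.y b ≠ 0 := by
  intro h
  have := M.adic_aeval_eq_one hQ hb
  rw [h] at this
  simp at this

/-- at a smooth point, a polynomial vanishing at the point is divisible by `t - z`, up to a unit. -/
theorem exists_div {z η : K} (hs : M.Smooth z η) :
    ∃ U : K[X][Y], U.evalEval z η ≠ 0 ∧ ∀ a : K[X][Y], a.evalEval z η = 0 →
      ∃ a₁ : K[X][Y], aevalAeval M.t M.y U * aevalAeval M.t M.y a =
        (M.t - algebraMap K F z) * aevalAeval M.t M.y a₁ := by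
  obtain ⟨ρ, U, hΦ⟩ := exists_decomp z η M.Φ
  refine ⟨U, ?_, ?_⟩
  · rw [← evalEval_derivative_of_decomp hΦ]
    exact hs.2
  · intro a ha
    obtain ⟨r, s, has⟩ := exists_decomp z η a
    rw [ha] at has
    rw [hs.1] at hΦ
    refine ⟨C r * U - C ρ * s, ?_⟩
    have h1 : aevalAeval M.t M.y M.Φ = 0 := (M.ker M.Φ).2 dvd_rfl
    rw [hΦ] at h1
    conv_lhs => rw [has]
    simp only [map_add, map_mul, map_sub, aevalAeval_C, aevalAeval_Y, aeval_X, aeval_C,
      map_zero, zero_add] at h1 ⊢
    linear_combination (aevalAeval M.t M.y s) * h1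

/-- factorisation of polynomial functions at a smooth point. -/
theorem exists_factor {Q : Place K F} {z η : K} (hs : M.Smooth z η) (hQ : M.At Q z η) (n : ℕ) :
    ∀ a : K[X][Y], aevalAeval M.t M.y a ≠ 0 → Q.ord (aevalAeval M.t M.y a) ≤ n →
      ∃ (k : ℕ) (b c : K[X][Y]), b.evalEval z η ≠ 0 ∧ c.evalEval z η ≠ 0 ∧
        aevalAeval M.t M.y b * aevalAeval M.t M.y a =
          (M.t - algebraMap K F z) ^ k * aevalAeval M.t M.y c := by
  obtain ⟨U, hU, hdiv⟩ := M.exists_div hs
  have htz0 : M.t - algebraMap K F z ≠ 0 := (M.param.sub_const z).ne_zero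
  have htz : 0 < Q.ord (M.t - algebraMap K F z) :=
    ((adic_lt_one_iff_ord Q).1 hQ.1).resolve_left htz0
  induction n with
  | zero =>
    intro a ha0 hord
    by_cases ha : a.evalEval z η = 0
    · exfalso
      have h1 : Q.adicValuation (aevalAeval M.t M.y a) < 1 := by
        rw [← val_eq_zero_iff Q (M.regular_aeval hQ a), M.val_aeval hQ, ha]
      have := ((adic_lt_one_iff_ord Q).1 h1).resolve_left ha0
      simp only [CharP.cast_eq_zero] at hord
      omega
    · exact ⟨0, 1, a, by simp, ha, by simp⟩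
  | succ n ih =>
    intro a ha0 hord
    by_cases ha : a.evalEval z η = 0
    · obtain ⟨a₁, ha₁⟩ := hdiv a ha
      have hU0 := M.aeval_ne_zero hQ hU
      have ha₁0 : aevalAeval M.t M.y a₁ ≠ 0 := by
        intro h
        rw [h, mul_zero] at ha₁
        exact (mul_ne_zero hU0 ha0) ha₁
      have h2 := congrArg Q.ord ha₁
      rw [Q.ord_mul hU0 ha0, Q.ord_mul htz0 ha₁0,
        ord_eq_zero_of_adic_eq_one Q (M.adic_aeval_eq_one hQ hU)] at h2
      obtain ⟨k, b, c, hb, hc, h⟩ := ih a₁ ha₁0 (by push_cast at hord; omega)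
      refine ⟨k + 1, b * U, c, ?_, hc, ?_⟩
      · rw [evalEval_mul]
        exact mul_ne_zero hb hU
      · rw [map_mul, mul_assoc, ha₁, pow_succ]
        linear_combination (M.t - algebraMap K F z) * h
    · exact ⟨0, 1, a, by simp, ha, by simp⟩

theorem exists_factor' {Q : Place K F} {z η : K} (hs : M.Smooth z η) (hQ : M.At Q z η)
    (a : K[X][Y]) (ha : aevalAeval M.t M.y a ≠ 0) :
      ∃ (k : ℕ) (b c : K[X][Y]), b.evalEval z η ≠ 0 ∧ c.evalEval z η ≠ 0 ∧
        aevalAeval M.t M.y b * aevalAeval M.t M.y a =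
          (M.t - algebraMap K F z) ^ k * aevalAeval M.t M.y c :=
  M.exists_factor hs hQ (Q.ord (aevalAeval M.t M.y a)).toNat a ha (Int.self_le_toNat _)

/-- every nonzero function is a power of `t - z` times a quotient of polynomial units. -/
theorem exists_factor_field {Q : Place K F} {z η : K} (hs : M.Smooth z η) (hQ : M.At Q z η)
    {f : F} (hf : f ≠ 0) :
    ∃ (k l : ℕ) (b c : K[X][Y]), b.evalEval z η ≠ 0 ∧ c.evalEval z η ≠ 0 ∧
      f * (M.t - algebraMap K F z) ^ l * aevalAeval M.t M.y b =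
        (M.t - algebraMap K F z) ^ k * aevalAeval M.t M.y c := by
  obtain ⟨a, b, hb0, hab⟩ := M.gen f
  have ha0 : aevalAeval M.t M.y a ≠ 0 := by
    rw [← hab]
    exact mul_ne_zero hf hb0
  obtain ⟨k, b₁, c₁, hb₁, hc₁, h₁⟩ := M.exists_factor' hs hQ a ha0
  obtain ⟨l, b₂, c₂, hb₂, hc₂, h₂⟩ := M.exists_factor' hs hQ b hb0
  refine ⟨k, l, b₁ * c₂, c₁ * b₂, ?_, ?_, ?_⟩
  · rw [evalEval_mul]; exact mul_ne_zero hb₁ hc₂
  · rw [evalEval_mul]; exact mul_ne_zero hc₁ hb₂
  · rw [map_mul, map_mul]
    linear_combination (-(f * aevalAeval M.t M.y b₁)) * h₂ + (aevalAeval M.t M.y b₂) * h₁ +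
      (aevalAeval M.t M.y b₁ * aevalAeval M.t M.y b₂) * hab

theorem ord_eq_of_factor {Q : Place K F} {z η : K} (hQ : M.At Q z η)
    {f : F} (hf : f ≠ 0) {k l : ℕ} {b c : K[X][Y]} (hb : b.evalEval z η ≠ 0)
    (hc : c.evalEval z η ≠ 0)
    (h : f * (M.t - algebraMap K F z) ^ l * aevalAeval M.t M.y b =
        (M.t - algebraMap K F z) ^ k * aevalAeval M.t M.y c) :
    Q.ord f = ((k : ℤ) - l) * Q.ord (M.t - algebraMap K F z) := by
  have htz0 : M.t - algebraMap K F z ≠ 0 := (M.param.sub_const z).ne_zero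
  have h2 := congrArg Q.ord h
  rw [Q.ord_mul (mul_ne_zero hf (pow_ne_zero _ htz0)) (M.aeval_ne_zero hQ hb),
    Q.ord_mul hf (pow_ne_zero _ htz0), Q.ord_mul (pow_ne_zero _ htz0) (M.aeval_ne_zero hQ hc),
    ord_eq_zero_of_adic_eq_one Q (M.adic_aeval_eq_one hQ hb),
    ord_eq_zero_of_adic_eq_one Q (M.adic_aeval_eq_one hQ hc),
    S24.Place.ord_pow, S24.Place.ord_pow] at h2
  linarith

/-- the local ring at a smooth point is the localisation of `K[t,y]`. -/
theorem local_desc {Q : Place K F} {z η : K} (hs : M.Smooth z η) (hQ : M.At Q z η) {f : F}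
    (hf : Q.adicValuation f ≤ 1) :
    ∃ a b : K[X][Y], b.evalEval z η ≠ 0 ∧ f * aevalAeval M.t M.y b = aevalAeval M.t M.y a := by
  rcases eq_or_ne f 0 with rfl | hf0
  · exact ⟨0, 1, by simp, by simp⟩
  obtain ⟨k, l, b, c, hb, hc, h⟩ := M.exists_factor_field hs hQ hf0
  have htz0 : M.t - algebraMap K F z ≠ 0 := (M.param.sub_const z).ne_zero
  have htz : 0 < Q.ord (M.t - algebraMap K F z) :=
    ((adic_lt_one_iff_ord Q).1 hQ.1).resolve_left htz0
  have h1 := M.ord_eq_of_factor hQ hf0 hb hc h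
  have h2 : 0 ≤ Q.ord f := (Q.adicValuation_le_one_iff.1 hf).resolve_left hf0
  have hlk : l ≤ k := by
    by_contra hlt
    push Not at hlt
    have : ((k : ℤ) - l) * Q.ord (M.t - algebraMap K F z) < 0 :=
      mul_neg_of_neg_of_pos (by omega) htz
    omega
  obtain ⟨d, rfl⟩ := Nat.exists_eq_add_of_le hlk
  refine ⟨C ((X - C z) ^ d) * c, b, hb, ?_⟩
  have h3 : aevalAeval M.t M.y (C ((X - C z) ^ d) * c) =
      (M.t - algebraMap K F z) ^ d * aevalAeval M.t M.y c := by
    simp
  rw [h3]
  apply mul_left_cancel₀ (pow_ne_zero l htz0)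
  rw [pow_add] at h
  linear_combination h

theorem unif_of_smooth {Q : Place K F} {z η : K} (hs : M.Smooth z η) (hQ : M.At Q z η) :
    Q.adicValuation (M.t - algebraMap K F z) = exp (-1 : ℤ) := by
  have htz0 : M.t - algebraMap K F z ≠ 0 := (M.param.sub_const z).ne_zero
  have htz : 0 < Q.ord (M.t - algebraMap K F z) :=
    ((adic_lt_one_iff_ord Q).1 hQ.1).resolve_left htz0
  obtain ⟨π, hπ0, _, hπ⟩ := S24.Place.exists_uniformizer Q
  obtain ⟨k, l, b, c, hb, hc, h⟩ := M.exists_factor_field hs hQ hπ0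
  have h1 := M.ord_eq_of_factor hQ hπ0 hb hc h
  rw [hπ] at h1
  have h2 : Q.ord (M.t - algebraMap K F z) = 1 :=
    Int.eq_one_of_dvd_one htz.le ⟨(k : ℤ) - l, by rw [h1]; ring⟩
  rw [Q.adicValuation_eq_exp_neg_ord htz0, h2]

theorem le_of_smooth {Q Q' : Place K F} {z η : K} (hs : M.Smooth z η) (hQ : M.At Q z η)
    (hQ' : M.At Q' z η) {f : F} (hf : Q.adicValuation f ≤ 1) : Q'.adicValuation f ≤ 1 := by
  obtain ⟨a, b, hb, hab⟩ := M.local_desc hs hQ hf
  have h1 := congrArg Q'.adicValuation hab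
  rw [map_mul, M.adic_aeval_eq_one hQ' hb, mul_one] at h1
  rw [h1]
  exact M.regular_aeval hQ' a

theorem unique_of_smooth {Q Q' : Place K F} {z η : K} (hs : M.Smooth z η) (hQ : M.At Q z η)
    (hQ' : M.At Q' z η) : Q = Q' := by
  apply Place.ext
  ext f
  rw [← adic_le_one_iff_mem, ← adic_le_one_iff_mem]
  exact ⟨M.le_of_smooth hs hQ hQ', M.le_of_smooth hs hQ' hQ⟩

/-- `y` is regular wherever `t` is. -/
theorem regular_y_of_regular_t {Q : Place K F} (h : Q.adicValuation M.t ≤ 1) :
    Q.adicValuation M.y ≤ 1 := by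
  rw [adic_le_one_iff_mem] at h ⊢
  let φ : K[X] →+* Q.toValuationSubring :=
    ((aeval (⟨M.t, h⟩ : Q.toValuationSubring) : K[X] →ₐ[K] Q.toValuationSubring) : K[X] →+* _)
  have hφ : (algebraMap Q.toValuationSubring F).comp φ =
      ((aeval M.t : K[X] →ₐ[K] F) : K[X] →+* F) := by
    apply Polynomial.ringHom_ext
    · intro a
      simp [φ]
    · simp [φ]
  have h1 : IsIntegral Q.toValuationSubring M.y := by
    refine ⟨M.Φ.map φ, M.monic.map φ, ?_⟩
    rw [Polynomial.eval₂_map, hφ, ← aevalAeval_eq_eval₂]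
    exact (M.ker M.Φ).2 dvd_rfl
  obtain ⟨x, hx⟩ := IsIntegrallyClosed.isIntegral_iff.1 h1
  rw [← hx]
  exact x.2

/-- a place at which `t` is regular is centred at a finite point. -/
theorem exists_at_of_regular {Q : Place K F} (h : Q.adicValuation M.t ≤ 1) :
    M.At Q (val Q M.t) (val Q M.y) :=
  ⟨val_spec Q h, val_spec Q (M.regular_y_of_regular_t h)⟩

end PlaneModel

end Fermat.Agent.S27
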