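import Fermat.Agent.GAL.FFExt

/-!
# S27 / WP P1, abstract core

`A ⊆ B` Dedekind domains with fraction fields `k ⊆ F`; an element `b : B` having a simple zero at
one prime `w` over `p` and no zero at the other primes over `p` is a primitive element of `F / k`
and the constant coefficient of its minimal polynomial has a simple zero at `p`.
-/

set_option autoImplicit false
set_option linter.style.haveILetI false
set_option linter.unusedSectionVars false

open AlgebraicCurve IsDedekindDomain IntermediateField Polynomial

namespace Fermat.Agent.S27.PlaneCore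

open Fermat.Agent.S24 Fermat.Agent.GAL.FFExt

section Count

variable {R : Type*} [CommRing R] [IsDedekindDomain R]

theorem mem_pow_iff_le_count (p : HeightOneSpectrum R) {c : R} (hc : c ≠ 0) (n : ℕ) :
    c ∈ p.asIdeal ^ n ↔
      n ≤ Multiset.count p.asIdeal (UniqueFactorizationMonoid.normalizedFactors (Ideal.span {c})) := by
  have h0 : Ideal.span {c} ≠ 0 := by simpa using hc
  have h1 := UniqueFactorizationMonoid.emultiplicity_eq_count_normalizedFactors
    p.irreducible h0
  rw [normalize_eq] at h1
  rw [← Ideal.span_singleton_le_iff_mem, ← Ideal.dvd_iff_le, pow_dvd_iff_le_emultiplicity, h1]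
  exact Nat.cast_le

end Count

variable {K k F A B : Type*} [Field K] [Field k] [Field F]
  [Algebra K k] [Algebra K F] [Algebra k F]
  [CommRing A] [IsDedekindDomain A] [Algebra A k] [IsFractionRing A k] [Algebra K A]
  [IsScalarTower K A k]
  [CommRing B] [IsDedekindDomain B] [Algebra B F] [IsFractionRing B F] [Algebra K B]
  [IsScalarTower K B F]
  [Algebra A B] [Algebra A F] [IsScalarTower A B F] [IsScalarTower A k F] [Module.Finite A B]
  [IsScalarTower K A B] [Module.IsTorsionFree A B]

theorem core [IsAlgClosed K] [CharZero K] [Algebra.FiniteType K B] [FiniteDimensional k F]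
    (p : HeightOneSpectrum A) (S : Finset (HeightOneSpectrum B))
    (hS : ∀ P, P ∈ S ↔ P.asIdeal.under A = p.asIdeal)
    (w : HeightOneSpectrum B) (hw : w ∈ S) (b : B) (hb1 : b ∈ w.asIdeal)
    (hb2 : b ∉ w.asIdeal ^ 2) (hb3 : ∀ Q ∈ S, Q ≠ w → b ∉ Q.asIdeal) :
    k⟮algebraMap B F b⟯ = ⊤ ∧ (minpoly A (algebraMap B F b)).coeff 0 ∈ p.asIdeal ∧
      (minpoly A (algebraMap B F b)).coeff 0 ∉ p.asIdeal ^ 2 := by
  classical
  have hb0 : b ≠ 0 := by
    rintro rfl
    exact hb2 (Ideal.zero_mem _)
  have hcount : Multiset.count p.asIdeal (UniqueFactorizationMonoid.normalizedFactors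
      (Ideal.relNorm A (Ideal.span {b}))) = 1 := by
    rw [count_relNorm (K := K) p _ (by simpa using hb0) S hS, Finset.sum_eq_single_of_mem w hw]
    · haveI := w.isPrime
      apply Ideal.count_normalizedFactors_eq
      · rw [pow_one, Ideal.span_singleton_le_iff_mem]; exact hb1
      · rw [Ideal.span_singleton_le_iff_mem]; exact hb2
    · intro Q hQ hne
      haveI := Q.isPrime
      apply Ideal.count_normalizedFactors_eq
      · simp
      · rw [zero_add, pow_one, Ideal.span_singleton_le_iff_mem]; exact hb3 Q hQ hne
  rw [Ideal.relNorm_singleton] at hcount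
  set y := algebraMap B F b with hy
  have hint : IsIntegral A y := (Algebra.IsIntegral.isIntegral (R := A) b).algebraMap
  have hintk : IsIntegral k y := hint.tower_top
  set c0 := (minpoly A y).coeff 0 with hc0
  set m := Module.finrank k⟮y⟯ F with hm
  haveI : IsIntegralClosure B A F := IsIntegralClosure.of_isIntegrallyClosed B A F
  have hN : Algebra.intNorm A B b = ((-1) ^ (adjoin.powerBasis hintk).dim * c0) ^ m := by
    apply IsFractionRing.injective A k
    rw [Algebra.algebraMap_intNorm (A := A) (K := k) (L := F) (B := B), ← hy,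
      Algebra.norm_eq_norm_adjoin]
    have h1 := Algebra.PowerBasis.norm_gen_eq_coeff_zero_minpoly (adjoin.powerBasis hintk)
    rw [adjoin.powerBasis_gen, minpoly_gen,
      minpoly.isIntegrallyClosed_eq_field_fractions' k hint, coeff_map] at h1
    rw [h1]
    simp [hc0, hm]
  have hspan : Ideal.span {Algebra.intNorm A B b} = Ideal.span {c0} ^ m := by
    rw [hN, ← Ideal.span_singleton_pow, Ideal.span_singleton_mul_left_unit]
    exact (isUnit_one.neg).pow _
  rw [hspan, UniqueFactorizationMonoid.normalizedFactors_pow, Multiset.count_nsmul] at hcount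
  have hm1 : m = 1 := Nat.eq_one_of_mul_eq_one_right hcount
  have hcnt : Multiset.count p.asIdeal
      (UniqueFactorizationMonoid.normalizedFactors (Ideal.span {c0})) = 1 :=
    Nat.eq_one_of_mul_eq_one_left hcount
  have hc00 : c0 ≠ 0 := by
    intro h
    rw [h] at hcnt
    have h2 : Ideal.span {(0 : A)} = 0 := by simp
    rw [h2, UniqueFactorizationMonoid.normalizedFactors_zero] at hcnt
    simp at hcnt
  refine ⟨?_, ?_, ?_⟩
  · have h1 := Module.finrank_mul_finrank k k⟮y⟯ F
    rw [← hm, hm1, mul_one] at h1
    apply IntermediateField.eq_of_le_of_finrank_eq le_top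
    rw [h1, IntermediateField.finrank_top']
  · have := (mem_pow_iff_le_count p hc00 1).2 hcnt.ge
    simpa using this
  · intro h
    have := (mem_pow_iff_le_count p hc00 2).1 h
    omega

end Fermat.Agent.S27.PlaneCore
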