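import Fermat.Agent.S27.Weil

/-!
# S27 : plane models, definitions (moved out of `Plane.lean` so that the leaves P1, P2, P3 can
live in separate files `Plane/Exists.lean`, `Plane/Smooth.lean`, `Plane/Coeff.lean`)
-/

set_option autoImplicit false

open AlgebraicCurve WithZero Polynomial
open scoped Polynomial.Bivariate

namespace Fermat.Agent.S27

/-- a plane model `Φ(t,y) = 0` of `F`, with `y` integral over `K[t]`, `F = K(t,y)`,
`Φ` the minimal polynomial. -/
structure PlaneModel (K F : Type*) [Field K] [Field F] [Algebra K F] where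
  t : F
  y : F
  Φ : K[X][Y]
  param : S24.IsFiniteParam K t
  monic : Φ.Monic
  ker : ∀ a : K[X][Y], aevalAeval t y a = 0 ↔ Φ ∣ a
  gen : ∀ f : F, ∃ a b : K[X][Y], aevalAeval t y b ≠ 0 ∧ f * aevalAeval t y b = aevalAeval t y a

variable {K F : Type*} [Field K] [Field F] [Algebra K F]
variable [IsAlgClosed K] [CharZero K] [IsFF K F]

/-- the place `Q` is centred at the point `(z, η)` of the plane model. -/
def PlaneModel.At (M : PlaneModel K F) (Q : Place K F) (z η : K) : Prop :=
  Q.adicValuation (M.t - algebraMap K F z) < 1 ∧ Q.adicValuation (M.y - algebraMap K F η) < 1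

/-- `(z, η)` is a point of the plane curve at which `∂Φ/∂Y ≠ 0`. -/
def PlaneModel.Smooth (M : PlaneModel K F) (z η : K) : Prop :=
  M.Φ.evalEval z η = 0 ∧ (derivative M.Φ).evalEval z η ≠ 0

end Fermat.Agent.S27
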